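import Mathlib

/-!
# PROGRAM G (S56), F4-ss satellite "AD⁰ OPERATOR FORM" (helper26), file 2: the abstract module

`M` a `k`-module with a "basis" `h, x, y` (`IsTriple k h x y`).  `M₀ = k ∙ h`,
`M₁ = span {x, y}`:

* `IsTriple.isCompl`, `IsTriple.card_span_pair`: `M = M₀ ⊕ M₁`, `|M₁| = |k|²`;
* stability of `M₀`, `M₁` under operators of diagonal type (`E h = h`, `E x = u x`, `E y = u' y`)
  and of antidiagonal type (`E h = -h`, `E x = u y`, `E y = u' x`);
* `IsTriple.eq_zero_of_neg`: no invariants in `M₀` under an operator with `E h = -h` (`2 ≠ 0`);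
* `pow_apply_of_diag`, `IsTriple.dichotomy`: powers of a diagonal operator on `M₁`; the dichotomy
  (`E = -1` on `M₁`) ∨ (`E m = -m → m = 0` on `M₁`).
-/

set_option autoImplicit false

namespace Fermat.Agent.TW.AdOp

variable (k : Type*) [Field k] {M : Type*} [AddCommGroup M] [Module k M]

/-- `h, x, y` span `M` and are linearly independent. -/
structure IsTriple (h x y : M) : Prop where
  span : ∀ m : M, ∃ a c d : k, m = a • h + c • x + d • y
  indep : ∀ a c d : k, a • h + c • x + d • y = 0 → a = 0 ∧ c = 0 ∧ d = 0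

variable {k}
variable {h x y : M}

theorem IsTriple.isCompl (T : IsTriple k h x y) :
    IsCompl (Submodule.span k {h}) (Submodule.span k {x, y}) := by
  constructor
  · rw [Submodule.disjoint_def]
    intro m hm0 hm1
    obtain ⟨a, rfl⟩ := Submodule.mem_span_singleton.mp hm0
    obtain ⟨c, d, hcd⟩ := Submodule.mem_span_pair.mp hm1
    have h0 : a • h + (-c) • x + (-d) • y = 0 := by
      rw [neg_smul, neg_smul, ← hcd]
      abel
    obtain ⟨ha, -, -⟩ := T.indep _ _ _ h0
    rw [ha, zero_smul]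
  · rw [codisjoint_iff, eq_top_iff]
    intro m _
    obtain ⟨a, c, d, rfl⟩ := T.span m
    rw [add_assoc]
    exact Submodule.add_mem_sup (Submodule.mem_span_singleton.mpr ⟨a, rfl⟩)
      (Submodule.mem_span_pair.mpr ⟨c, d, rfl⟩)

theorem IsTriple.eq_of_pair (T : IsTriple k h x y) {c d c' d' : k}
    (e : c • x + d • y = c' • x + d' • y) : c = c' ∧ d = d' := by
  have h0 : (0 : k) • h + (c - c') • x + (d - d') • y = 0 := by
    rw [zero_smul, zero_add, sub_smul, sub_smul]
    have : c • x - c' • x + (d • y - d' • y) = (c • x + d • y) - (c' • x + d' • y) := by abel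
    rw [this, e, sub_self]
  obtain ⟨-, hc, hd⟩ := T.indep _ _ _ h0
  exact ⟨sub_eq_zero.mp hc, sub_eq_zero.mp hd⟩

/-- `|M₁| = |k|²`. -/
theorem IsTriple.card_span_pair (T : IsTriple k h x y) :
    Nat.card (Submodule.span k {x, y}) = Nat.card k ^ 2 := by
  have hbij : Function.Bijective (fun cd : k × k =>
      (⟨cd.1 • x + cd.2 • y, Submodule.mem_span_pair.mpr ⟨cd.1, cd.2, rfl⟩⟩ :
        Submodule.span k {x, y})) := by
    constructor
    · rintro ⟨c, d⟩ ⟨c', d'⟩ e
      have e' : c • x + d • y = c' • x + d' • y := congrArg Subtype.val e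
      obtain ⟨rfl, rfl⟩ := T.eq_of_pair e'
      rfl
    · rintro ⟨m, hm⟩
      obtain ⟨c, d, rfl⟩ := Submodule.mem_span_pair.mp hm
      exact ⟨(c, d), rfl⟩
  rw [← Nat.card_congr (Equiv.ofBijective _ hbij), Nat.card_prod, sq]

/-! ### Stability -/

theorem map_mem_span_singleton (E : M →ₗ[k] M) (hE : E h = h ∨ E h = -h) :
    ∀ m ∈ Submodule.span k {h}, E m ∈ Submodule.span k {h} := by
  intro m hm
  obtain ⟨a, rfl⟩ := Submodule.mem_span_singleton.mp hm
  rw [map_smul]
  rcases hE with hE | hE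
  · rw [hE]; exact Submodule.mem_span_singleton.mpr ⟨a, rfl⟩
  · rw [hE]; exact Submodule.mem_span_singleton.mpr ⟨-a, by rw [neg_smul, smul_neg]⟩

theorem map_mem_span_pair (E : M →ₗ[k] M)
    (hE : (∃ u u' : k, E x = u • x ∧ E y = u' • y) ∨ (∃ u u' : k, E x = u • y ∧ E y = u' • x)) :
    ∀ m ∈ Submodule.span k {x, y}, E m ∈ Submodule.span k {x, y} := by
  intro m hm
  obtain ⟨c, d, rfl⟩ := Submodule.mem_span_pair.mp hm
  rw [map_add, map_smul, map_smul]
  rcases hE with ⟨u, u', hx, hy⟩ | ⟨u, u', hx, hy⟩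
  · rw [hx, hy, smul_smul, smul_smul]
    exact Submodule.mem_span_pair.mpr ⟨c * u, d * u', rfl⟩
  · rw [hx, hy, smul_smul, smul_smul]
    exact Submodule.mem_span_pair.mpr ⟨d * u', c * u, add_comm _ _⟩

/-- No invariants on `M₀` for an operator with `E h = -h`. -/
theorem IsTriple.eq_zero_of_neg (T : IsTriple k h x y) (h2 : (2 : k) ≠ 0) (E : M →ₗ[k] M)
    (hE : E h = -h) : ∀ m ∈ Submodule.span k {h}, E m = m → m = 0 := by
  intro m hm hfix
  obtain ⟨a, rfl⟩ := Submodule.mem_span_singleton.mp hm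
  rw [map_smul, hE, smul_neg] at hfix
  have h0 : (2 * a) • h + (0 : k) • x + (0 : k) • y = 0 := by
    rw [zero_smul, zero_smul, add_zero, add_zero, mul_smul, two_smul]
    nth_rewrite 1 [← hfix]
    exact neg_add_cancel _
  obtain ⟨ha, -, -⟩ := T.indep _ _ _ h0
  have : a = 0 := by
    rcases mul_eq_zero.mp ha with h | h
    · exact absurd h h2
    · exact h
  rw [this, zero_smul]

/-! ### Diagonal operators on `M₁` -/

theorem pow_apply_of_diag (E : M →ₗ[k] M) {u u' : k} (hx : E x = u • x) (hy : E y = u' • y)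
    (n : ℕ) (c d : k) : (E ^ n) (c • x + d • y) = (c * u ^ n) • x + (d * u' ^ n) • y := by
  induction n generalizing c d with
  | zero => simp
  | succ n ih =>
    rw [pow_succ, Module.End.mul_apply, map_add, map_smul, map_smul, hx, hy, smul_smul, smul_smul,
      ih, pow_succ, pow_succ]
    congr 2 <;> ring

/-- If `u ^ n = -1 = u' ^ n` then `E ^ n = -1` on `M₁`. -/
theorem pow_apply_eq_neg (E : M →ₗ[k] M) {u u' : k} (hx : E x = u • x) (hy : E y = u' • y)
    {n : ℕ} (hu : u ^ n = -1) (hu' : u' ^ n = -1) :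
    ∀ m ∈ Submodule.span k {x, y}, (E ^ n) m = -m := by
  intro m hm
  obtain ⟨c, d, rfl⟩ := Submodule.mem_span_pair.mp hm
  rw [pow_apply_of_diag E hx hy, hu, hu', mul_neg_one, mul_neg_one, neg_smul, neg_smul]
  abel

/-- **The dichotomy** on `M₁`. -/
theorem IsTriple.dichotomy (T : IsTriple k h x y) (E : M →ₗ[k] M) {u : k} (hx : E x = u • x)
    (hy : E y = u⁻¹ • y) :
    (∀ m ∈ Submodule.span k {x, y}, E m = -m) ∨
      (∀ m ∈ Submodule.span k {x, y}, E m = -m → m = 0) := by
  by_cases hu : u = -1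
  · left
    intro m hm
    obtain ⟨c, d, rfl⟩ := Submodule.mem_span_pair.mp hm
    have hu' : u⁻¹ = -1 := by rw [hu, inv_neg, inv_one]
    rw [map_add, map_smul, map_smul, hx, hy, hu', hu, neg_smul, neg_smul, one_smul, one_smul]
    simp only [smul_neg]
    abel
  · right
    intro m hm hneg
    obtain ⟨c, d, rfl⟩ := Submodule.mem_span_pair.mp hm
    rw [map_add, map_smul, map_smul, hx, hy, smul_smul, smul_smul] at hneg
    have e : (c * u) • x + (d * u⁻¹) • y = (-c) • x + (-d) • y := by
      rw [hneg, neg_smul, neg_smul]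
      abel
    obtain ⟨hc, hd⟩ := T.eq_of_pair e
    have hu1 : u + 1 ≠ 0 := fun h0 => hu (eq_neg_of_add_eq_zero_left h0)
    have hc0 : c = 0 := by
      have : c * (u + 1) = 0 := by rw [mul_add, mul_one, hc]; exact neg_add_cancel c
      rcases mul_eq_zero.mp this with h | h
      · exact h
      · exact absurd h hu1
    have hd0 : d = 0 := by
      have h1 : d * (u⁻¹ + 1) = 0 := by rw [mul_add, mul_one, hd]; exact neg_add_cancel d
      rcases mul_eq_zero.mp h1 with h | h
      · exact h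
      · exfalso
        have : u⁻¹ = -1 := eq_neg_of_add_eq_zero_left h
        apply hu
        rw [← inv_inv u, this, inv_neg, inv_one]
    rw [hc0, hd0, zero_smul, zero_smul, add_zero]

end Fermat.Agent.TW.AdOp
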