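import Mathlib

/-!
# PROGRAM G (S56), F4-ss satellite "AD⁰ OPERATOR FORM" (helper26), file 1: linear algebra

`V` a `k`-vector space with a basis `b : Basis (Fin 2) k V`.  In `End k V`:
`hh b = diag(1, -1)`, `xp b = E₁₂` (`b 1 ↦ b 0`), `xm b = E₂₁` (`b 0 ↦ b 1`).

* `trace_hh`, `trace_xp`, `trace_xm`, `exists_eq_of_trace_eq_zero`, `eq_zero_of_combo`:
  `sl(V) = k h ⊕ k x₊ ⊕ k x₋`;
* for `A, A'` mutually inverse: `conj_*_of_diag` (`A b0 = α b0`, `A b1 = β b1`):
  `A h A' = h`, `A x₊ A' = (α/β) x₊`, `A x₋ A' = (β/α) x₋`;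
  `conj_*_of_anti` (`A b0 = γ b1`, `A b1 = δ b0`): `A h A' = -h`, `A x₊ A' = (γ/δ) x₋`,
  `A x₋ A' = (δ/γ) x₊`; `conj_of_scalar`: scalars act trivially.
-/

set_option autoImplicit false

open Module

namespace Fermat.Agent.TW.AdOp

variable {k : Type*} [Field k] {V : Type*} [AddCommGroup V] [Module k V]
  (b : Basis (Fin 2) k V)

/-- `diag(1, -1)` in the basis `b`. -/
noncomputable def hh : Module.End k V := b.constr k ![b 0, -b 1]

/-- `E₁₂` in the basis `b`: `b 1 ↦ b 0`, `b 0 ↦ 0`. -/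
noncomputable def xp : Module.End k V := b.constr k ![0, b 0]

/-- `E₂₁` in the basis `b`: `b 0 ↦ b 1`, `b 1 ↦ 0`. -/
noncomputable def xm : Module.End k V := b.constr k ![b 1, 0]

@[simp] theorem hh_b0 : hh b (b 0) = b 0 := by simp [hh]
@[simp] theorem hh_b1 : hh b (b 1) = -b 1 := by simp [hh]
@[simp] theorem xp_b0 : xp b (b 0) = 0 := by simp [xp]
@[simp] theorem xp_b1 : xp b (b 1) = b 0 := by simp [xp]
@[simp] theorem xm_b0 : xm b (b 0) = b 1 := by simp [xm]
@[simp] theorem xm_b1 : xm b (b 1) = 0 := by simp [xm]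

/-- Two endomorphisms agreeing on `b 0`, `b 1` are equal. -/
theorem end_ext {f g : Module.End k V} (h0 : f (b 0) = g (b 0)) (h1 : f (b 1) = g (b 1)) :
    f = g := by
  apply b.ext
  intro i
  fin_cases i
  · exact h0
  · exact h1

theorem b0_ne_zero : b 0 ≠ 0 := b.ne_zero 0
theorem b1_ne_zero : b 1 ≠ 0 := b.ne_zero 1

/-- Coordinates: `x • b 0 + y • b 1 = 0 → x = 0 ∧ y = 0`. -/
theorem eq_zero_of_smul_add_smul {x y : k} (h : x • b 0 + y • b 1 = 0) : x = 0 ∧ y = 0 := by
  have hli := b.linearIndependent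
  rw [Fintype.linearIndependent_iff] at hli
  have := hli ![x, y] (by simpa [Fin.sum_univ_two] using h)
  exact ⟨by simpa using this 0, by simpa using this 1⟩

/-- Every vector is `x • b 0 + y • b 1`. -/
theorem exists_coords (v : V) : ∃ x y : k, v = x • b 0 + y • b 1 :=
  ⟨b.repr v 0, b.repr v 1, by
    conv_lhs => rw [← b.sum_repr v]
    rw [Fin.sum_univ_two]⟩

/-! ### Traces and the decomposition of `sl` -/

theorem trace_eq (f : Module.End k V) {x y z w : k} (h0 : f (b 0) = x • b 0 + z • b 1)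
    (h1 : f (b 1) = y • b 0 + w • b 1) : LinearMap.trace k V f = x + w := by
  rw [LinearMap.trace_eq_matrix_trace k b, Matrix.trace_fin_two]
  have e00 : LinearMap.toMatrix b b f 0 0 = x := by
    rw [LinearMap.toMatrix_apply, h0]
    simp
  have e11 : LinearMap.toMatrix b b f 1 1 = w := by
    rw [LinearMap.toMatrix_apply, h1]
    simp
  rw [e00, e11]

theorem trace_hh : LinearMap.trace k V (hh b) = 0 := by
  rw [trace_eq b (hh b) (x := 1) (z := 0) (y := 0) (w := -1) (by simp) (by simp)]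
  ring

theorem trace_xp : LinearMap.trace k V (xp b) = 0 := by
  rw [trace_eq b (xp b) (x := 0) (z := 0) (y := 1) (w := 0) (by simp) (by simp)]
  ring

theorem trace_xm : LinearMap.trace k V (xm b) = 0 := by
  rw [trace_eq b (xm b) (x := 0) (z := 1) (y := 0) (w := 0) (by simp) (by simp)]
  ring

/-- A trace-zero endomorphism is `a h + c x₊ + d x₋`. -/
theorem exists_eq_of_trace_eq_zero {f : Module.End k V} (hf : LinearMap.trace k V f = 0) :
    ∃ a c d : k, f = a • hh b + c • xp b + d • xm b := by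
  obtain ⟨x, z, h0⟩ := exists_coords b (f (b 0))
  obtain ⟨y, w, h1⟩ := exists_coords b (f (b 1))
  have htr := trace_eq b f h0 h1
  rw [hf] at htr
  have hw : w = -x := by linear_combination -htr
  refine ⟨x, y, z, end_ext b ?_ ?_⟩
  · rw [h0]; simp
  · rw [h1, hw]; simp [add_comm]

/-- `h, x₊, x₋` are linearly independent. -/
theorem eq_zero_of_combo {a c d : k} (h : a • hh b + c • xp b + d • xm b = 0) :
    a = 0 ∧ c = 0 ∧ d = 0 := by
  have h0 := congrArg (fun f : Module.End k V => f (b 0)) h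
  have h1 := congrArg (fun f : Module.End k V => f (b 1)) h
  simp only [LinearMap.add_apply, LinearMap.smul_apply, hh_b0, hh_b1, xp_b0, xp_b1, xm_b0, xm_b1,
    smul_zero, add_zero, LinearMap.zero_apply, smul_neg] at h0 h1
  obtain ⟨ha, hd⟩ := eq_zero_of_smul_add_smul b h0
  have h1' : c • b 0 + (-a) • b 1 = 0 := by rw [neg_smul, ← h1]; abel
  obtain ⟨hc, -⟩ := eq_zero_of_smul_add_smul b h1'
  exact ⟨ha, hc, hd⟩

/-! ### Conjugation by diagonal, antidiagonal and scalar automorphisms -/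

section Conj

variable {A A' : Module.End k V}

theorem inv_of_diag (h2 : A' * A = 1) {α β : k} (h0 : A (b 0) = α • b 0)
    (h1 : A (b 1) = β • b 1) :
    α ≠ 0 ∧ β ≠ 0 ∧ A' (b 0) = α⁻¹ • b 0 ∧ A' (b 1) = β⁻¹ • b 1 := by
  have e0 : A' (A (b 0)) = b 0 := by rw [← Module.End.mul_apply, h2, Module.End.one_apply]
  have e1 : A' (A (b 1)) = b 1 := by rw [← Module.End.mul_apply, h2, Module.End.one_apply]
  rw [h0, map_smul] at e0
  rw [h1, map_smul] at e1
  have hα : α ≠ 0 := by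
    rintro rfl
    rw [zero_smul] at e0
    exact b0_ne_zero b e0.symm
  have hβ : β ≠ 0 := by
    rintro rfl
    rw [zero_smul] at e1
    exact b1_ne_zero b e1.symm
  refine ⟨hα, hβ, ?_, ?_⟩
  · calc A' (b 0) = α⁻¹ • (α • A' (b 0)) := by rw [smul_smul, inv_mul_cancel₀ hα, one_smul]
      _ = α⁻¹ • b 0 := by rw [e0]
  · calc A' (b 1) = β⁻¹ • (β • A' (b 1)) := by rw [smul_smul, inv_mul_cancel₀ hβ, one_smul]
      _ = β⁻¹ • b 1 := by rw [e1]

theorem inv_of_anti (h2 : A' * A = 1) {γ δ : k} (h0 : A (b 0) = γ • b 1)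
    (h1 : A (b 1) = δ • b 0) :
    γ ≠ 0 ∧ δ ≠ 0 ∧ A' (b 1) = γ⁻¹ • b 0 ∧ A' (b 0) = δ⁻¹ • b 1 := by
  have e0 : A' (A (b 0)) = b 0 := by rw [← Module.End.mul_apply, h2, Module.End.one_apply]
  have e1 : A' (A (b 1)) = b 1 := by rw [← Module.End.mul_apply, h2, Module.End.one_apply]
  rw [h0, map_smul] at e0
  rw [h1, map_smul] at e1
  have hγ : γ ≠ 0 := by
    rintro rfl
    rw [zero_smul] at e0
    exact b0_ne_zero b e0.symm
  have hδ : δ ≠ 0 := by
    rintro rfl
    rw [zero_smul] at e1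
    exact b1_ne_zero b e1.symm
  refine ⟨hγ, hδ, ?_, ?_⟩
  · calc A' (b 1) = γ⁻¹ • (γ • A' (b 1)) := by rw [smul_smul, inv_mul_cancel₀ hγ, one_smul]
      _ = γ⁻¹ • b 0 := by rw [e0]
  · calc A' (b 0) = δ⁻¹ • (δ • A' (b 0)) := by rw [smul_smul, inv_mul_cancel₀ hδ, one_smul]
      _ = δ⁻¹ • b 1 := by rw [e1]

theorem conj_hh_of_diag (h2 : A' * A = 1) {α β : k} (h0 : A (b 0) = α • b 0)
    (h1 : A (b 1) = β • b 1) : A * hh b * A' = hh b := by
  obtain ⟨hα, hβ, e0, e1⟩ := inv_of_diag b h2 h0 h1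
  apply end_ext b
  · simp only [Module.End.mul_apply, e0, map_smul, hh_b0, h0, smul_smul, inv_mul_cancel₀ hα,
      one_smul]
  · simp only [Module.End.mul_apply, e1, map_smul, hh_b1, map_neg, h1, smul_neg, smul_smul,
      inv_mul_cancel₀ hβ, one_smul]

theorem conj_xp_of_diag (h2 : A' * A = 1) {α β : k} (h0 : A (b 0) = α • b 0)
    (h1 : A (b 1) = β • b 1) : A * xp b * A' = (α / β) • xp b := by
  obtain ⟨hα, hβ, e0, e1⟩ := inv_of_diag b h2 h0 h1
  apply end_ext b
  · simp only [Module.End.mul_apply, e0, map_smul, xp_b0, map_zero, smul_zero,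
      LinearMap.smul_apply]
  · simp only [Module.End.mul_apply, e1, map_smul, xp_b1, h0, smul_smul, LinearMap.smul_apply]
    congr 1
    field_simp

theorem conj_xm_of_diag (h2 : A' * A = 1) {α β : k} (h0 : A (b 0) = α • b 0)
    (h1 : A (b 1) = β • b 1) : A * xm b * A' = (β / α) • xm b := by
  obtain ⟨hα, hβ, e0, e1⟩ := inv_of_diag b h2 h0 h1
  apply end_ext b
  · simp only [Module.End.mul_apply, e0, map_smul, xm_b0, h1, smul_smul, LinearMap.smul_apply]
    congr 1
    field_simp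
  · simp only [Module.End.mul_apply, e1, map_smul, xm_b1, map_zero, smul_zero,
      LinearMap.smul_apply]

theorem conj_hh_of_anti (h2 : A' * A = 1) {γ δ : k} (h0 : A (b 0) = γ • b 1)
    (h1 : A (b 1) = δ • b 0) : A * hh b * A' = -hh b := by
  obtain ⟨hγ, hδ, e1, e0⟩ := inv_of_anti b h2 h0 h1
  apply end_ext b
  · simp only [Module.End.mul_apply, e0, map_smul, hh_b1, map_neg, h1, smul_neg, smul_smul,
      inv_mul_cancel₀ hδ, one_smul, LinearMap.neg_apply, hh_b0]
  · simp only [Module.End.mul_apply, e1, map_smul, hh_b0, h0, smul_smul, inv_mul_cancel₀ hγ,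
      one_smul, LinearMap.neg_apply, hh_b1, neg_neg]

theorem conj_xp_of_anti (h2 : A' * A = 1) {γ δ : k} (h0 : A (b 0) = γ • b 1)
    (h1 : A (b 1) = δ • b 0) : A * xp b * A' = (γ / δ) • xm b := by
  obtain ⟨hγ, hδ, e1, e0⟩ := inv_of_anti b h2 h0 h1
  apply end_ext b
  · simp only [Module.End.mul_apply, e0, map_smul, xp_b1, h0, smul_smul, LinearMap.smul_apply,
      xm_b0]
    congr 1
    field_simp
  · simp only [Module.End.mul_apply, e1, map_smul, xp_b0, map_zero, smul_zero,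
      LinearMap.smul_apply, xm_b1]

theorem conj_xm_of_anti (h2 : A' * A = 1) {γ δ : k} (h0 : A (b 0) = γ • b 1)
    (h1 : A (b 1) = δ • b 0) : A * xm b * A' = (δ / γ) • xp b := by
  obtain ⟨hγ, hδ, e1, e0⟩ := inv_of_anti b h2 h0 h1
  apply end_ext b
  · simp only [Module.End.mul_apply, e0, map_smul, xm_b1, map_zero, smul_zero,
      LinearMap.smul_apply, xp_b0]
  · simp only [Module.End.mul_apply, e1, map_smul, xm_b0, h1, smul_smul, LinearMap.smul_apply,
      xp_b1]
    congr 1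
    field_simp

omit b in
/-- Scalars act trivially by conjugation. -/
theorem conj_of_scalar (h1 : A * A' = 1) {c : k} (hA : A = c • (1 : Module.End k V))
    (f : Module.End k V) : A * f * A' = f := by
  have h3 : A * f = f * A := by rw [hA]; simp
  rw [h3, mul_assoc, h1, mul_one]

end Conj

end Fermat.Agent.TW.AdOp
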