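import Mathlib
import Fermat.Prelude.Def_GaloisRep_CompletionBridge
import Fermat.Agent.TW.Ad0
import Fermat.Agent.TW.KumEigen.Data
import Fermat.Agent.TW.AdOp.LinAlg
import Fermat.Agent.TW.AdOp.Abstract

/-!
# PROGRAM G (S56), F4-ss satellite "AD⁰ OPERATOR FORM" (helper26), file 3: the operator hypotheses

`ρbar : ResidualGaloisRep k` of level-two (supersingular) shape at `p` in a basis `b` of `ρbar.V`,
`r = localGaloisToGlobal p`, `D : TameData p ℚ_[p] (PadicAlgCl p)`.  On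
`M = sl ρbar` (the carrier of `ad0Rep ρbar` and of `Rep.res r (ad0Rep ρbar)`), with
`actZ p ρbar g = ((ad0Rep ρbar).ρ (r g)).restrictScalars ℤ`, `M₀ = k ∙ h`, `M₁ = span {x₊, x₋}`,
we prove **to the letter** the operator hypotheses `hpM hact hH M₀ M₁ hc h₀s h₁s hτ₀ hinv₀ hcard₁
hτ₁ hdich` of helper20's `KumEigen.finrank_range_le_one` (finding #1587): `operator_form`
(neutral input) and `operator_form_of_ext` (input = the two extra clauses of `levelTwo_ext`,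
helper28, in local form, together with clauses 6, 7 of `IsLocalLevelTwo`, helper9).
-/

set_option autoImplicit false
set_option linter.style.haveILetI false
set_option linter.unusedSectionVars false

open Module

namespace Fermat.Agent.TW.AdOp

open Fermat.Agent.TW.Ad0 Fermat.Agent.TW.KumEigen

local notation "Γℚ" => (AlgebraicClosure ℚ ≃ₐ[ℚ] AlgebraicClosure ℚ)

variable {k : Type} [Field k] (ρbar : ResidualGaloisRep k) (b : Basis (Fin 2) k ρbar.V)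

/-! ### The standard triple in `sl ρbar` -/

/-- `h = diag(1, -1)` in `sl ρbar`. -/
noncomputable def hS : sl ρbar := ⟨hh b, (mem_sl_iff ρbar _).mpr (trace_hh b)⟩

/-- `x₊ = E₁₂` in `sl ρbar`. -/
noncomputable def xS : sl ρbar := ⟨xp b, (mem_sl_iff ρbar _).mpr (trace_xp b)⟩

/-- `x₋ = E₂₁` in `sl ρbar`. -/
noncomputable def yS : sl ρbar := ⟨xm b, (mem_sl_iff ρbar _).mpr (trace_xm b)⟩

theorem isTriple : IsTriple k (hS ρbar b) (xS ρbar b) (yS ρbar b) := by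
  constructor
  · intro m
    obtain ⟨a, c, d, e⟩ := exists_eq_of_trace_eq_zero b ((mem_sl_iff ρbar _).mp m.2)
    exact ⟨a, c, d, Subtype.ext e⟩
  · intro a c d e
    have e' := congrArg Subtype.val e
    exact eq_zero_of_combo b e'

/-- `sl ρbar` is finite when `k` is. -/
theorem finite_sl [Finite k] : Finite (sl ρbar) := Module.finite_of_finite k

/-! ### The adjoint action of diagonal, antidiagonal and scalar elements -/

variable {ρbar b}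

theorem ad0_of_diag {s : Γℚ} {α β : k} (h0 : ρbar.ρ s (b 0) = α • b 0)
    (h1 : ρbar.ρ s (b 1) = β • b 1) :
    ad0Repn ρbar s (hS ρbar b) = hS ρbar b ∧
      ad0Repn ρbar s (xS ρbar b) = (α / β) • xS ρbar b ∧
      ad0Repn ρbar s (yS ρbar b) = (β / α) • yS ρbar b := by
  have h2 := rho_inv_mul_rho ρbar s
  refine ⟨Subtype.ext ?_, Subtype.ext ?_, Subtype.ext ?_⟩
  · rw [coe_ad0Repn_apply]; exact conj_hh_of_diag b h2 h0 h1
  · rw [coe_ad0Repn_apply]; exact conj_xp_of_diag b h2 h0 h1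
  · rw [coe_ad0Repn_apply]; exact conj_xm_of_diag b h2 h0 h1

theorem ad0_of_anti {s : Γℚ} {γ δ : k} (h0 : ρbar.ρ s (b 0) = γ • b 1)
    (h1 : ρbar.ρ s (b 1) = δ • b 0) :
    ad0Repn ρbar s (hS ρbar b) = -hS ρbar b ∧
      ad0Repn ρbar s (xS ρbar b) = (γ / δ) • yS ρbar b ∧
      ad0Repn ρbar s (yS ρbar b) = (δ / γ) • xS ρbar b := by
  have h2 := rho_inv_mul_rho ρbar s
  refine ⟨Subtype.ext ?_, Subtype.ext ?_, Subtype.ext ?_⟩
  · rw [coe_ad0Repn_apply]; exact conj_hh_of_anti b h2 h0 h1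
  · rw [coe_ad0Repn_apply]; exact conj_xp_of_anti b h2 h0 h1
  · rw [coe_ad0Repn_apply]; exact conj_xm_of_anti b h2 h0 h1

theorem ad0_of_scalar {s : Γℚ} {c : k} (hs : ρbar.ρ s = c • (1 : Module.End k ρbar.V))
    (f : sl ρbar) : ad0Repn ρbar s f = f := by
  apply Subtype.ext
  rw [coe_ad0Repn_apply]
  exact conj_of_scalar (rho_mul_rho_inv ρbar s) hs _

/-! ### Arithmetic of the exponents -/

theorem exp_arith {p : ℕ} (hp : p.Prime) (hp2 : p ≠ 2) :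
    p * ((p + 1) / 2) = (p + 1) / 2 + (p ^ 2 - 1) / 2 := by
  obtain ⟨m, rfl⟩ : ∃ m, p = 2 * m + 1 := by
    rcases hp.eq_two_or_odd' with h | h
    · exact absurd h hp2
    · exact h
  have e1 : (2 * m + 1 + 1) / 2 = m + 1 := by omega
  have e2 : (2 * m + 1) ^ 2 - 1 = 2 * (2 * m * (m + 1)) := by
    have : (2 * m + 1) ^ 2 = 2 * (2 * m * (m + 1)) + 1 := by ring
    omega
  rw [e1, e2, Nat.mul_div_cancel_left _ (by norm_num : 0 < 2)]
  ring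

/-- `(ξ / ξ^p) ^ ((p+1)/2) = -1`. -/
theorem ratio_pow_eq_neg_one {p : ℕ} (hp : p.Prime) (hp2 : p ≠ 2) {ξ : k}
    (hξ3 : ξ ^ ((p ^ 2 - 1) / 2) = -1) : (ξ / ξ ^ p) ^ ((p + 1) / 2) = -1 := by
  have hN : (p ^ 2 - 1) / 2 ≠ 0 := by
    have h2 := hp.two_le
    have h3 : 2 ≤ p ^ 2 - 1 := by
      have : 2 * 2 ≤ p * p := Nat.mul_le_mul h2 h2
      have : p ^ 2 = p * p := sq p
      omega
    omega
  have hξ0 : ξ ≠ 0 := by
    rintro rfl
    rw [zero_pow hN] at hξ3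
    exact one_ne_zero (neg_eq_zero.mp hξ3.symm)
  set n := (p + 1) / 2 with hn
  have e : (ξ ^ p) ^ n = -ξ ^ n := by
    rw [← pow_mul, exp_arith hp hp2, pow_add, hξ3, mul_neg_one]
  rw [div_pow, e, div_neg, div_self (pow_ne_zero _ hξ0)]

/-! ### The action as a monoid hom into `ℤ`-linear endomorphisms -/

section Act

variable (p : ℕ) [hp : Fact p.Prime] (ρbar)

local notation "Gp" => (PadicAlgCl p ≃ₐ[ℚ_[p]] PadicAlgCl p)

/-- The action of `G_{ℚ_p}` on `ad⁰ ρbar` by `ℤ`-linear endomorphisms. -/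
noncomputable def actZ : Gp →* Module.End ℤ (sl ρbar) where
  toFun g := (ad0Repn ρbar (localGaloisToGlobal p g)).restrictScalars ℤ
  map_one' := by
    rw [map_one, map_one]
    rfl
  map_mul' g h := by
    rw [map_mul, map_mul]
    rfl

theorem actZ_apply (g : Gp) (m : sl ρbar) :
    actZ ρbar p g m = ad0Repn ρbar (localGaloisToGlobal p g) m := rfl

theorem actZ_pow_apply (g : Gp) (n : ℕ) (m : sl ρbar) :
    (actZ ρbar p g ^ n) m = ((ad0Repn ρbar (localGaloisToGlobal p g)) ^ n) m := by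
  induction n generalizing m with
  | zero => rfl
  | succ n ih =>
    rw [pow_succ, pow_succ, Module.End.mul_apply, Module.End.mul_apply, actZ_apply, ih]

end Act

/-! ### The operator form -/

section Main

variable {p : ℕ} [hp : Fact p.Prime]

local notation "Gp" => (PadicAlgCl p ≃ₐ[ℚ_[p]] PadicAlgCl p)

variable (ρbar b)

/-- Powers of an action agreeing pointwise with the adjoint action. -/
theorem act_pow_apply (act : Gp →* Module.End ℤ (sl ρbar))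
    (hact_eq : ∀ g m, act g m = ad0Repn ρbar (localGaloisToGlobal p g) m) (g : Gp) (n : ℕ)
    (m : sl ρbar) : (act g ^ n) m = ((ad0Repn ρbar (localGaloisToGlobal p g)) ^ n) m := by
  induction n generalizing m with
  | zero => rfl
  | succ n ih =>
    rw [pow_succ, pow_succ, Module.End.mul_apply, Module.End.mul_apply, hact_eq, ih]

/-- **AD⁰ operator form** (neutral input, any presentation `act` of the adjoint action): the
hypotheses `hpM hact hH M₀ M₁ hc h₀s h₁s hτ₀ hinv₀ hcard₁ hτ₁ hdich` of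
`KumEigen.finrank_range_le_one` for `M = sl ρbar`. -/
theorem operator_form_act [CharP k p] (hp2 : p ≠ 2) (D : TameData p ℚ_[p] (PadicAlgCl p))
    (act : Gp →* Module.End ℤ (sl ρbar))
    (hact_eq : ∀ g m, act g m = ad0Repn ρbar (localGaloisToGlobal p g) m) {ξ : k}
    (hξ3 : ξ ^ ((p ^ 2 - 1) / 2) = -1)
    (hτ : ∃ c : k, ρbar.ρ (localGaloisToGlobal p D.τ) (b 0) = (c * ξ) • b 0 ∧
      ρbar.ρ (localGaloisToGlobal p D.τ) (b 1) = (c * ξ ^ p) • b 1)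
    (hanti : ∃ σ : Gp, (∃ c : k, ρbar.ρ (localGaloisToGlobal p σ) (b 0) = c • b 1) ∧
      (∃ c : k, ρbar.ρ (localGaloisToGlobal p σ) (b 1) = c • b 0))
    (hall : ∀ σ : Gp,
      ((∃ c : k, ρbar.ρ (localGaloisToGlobal p σ) (b 0) = c • b 0) ∧
        (∃ c : k, ρbar.ρ (localGaloisToGlobal p σ) (b 1) = c • b 1)) ∨
      ((∃ c : k, ρbar.ρ (localGaloisToGlobal p σ) (b 0) = c • b 1) ∧
        (∃ c : k, ρbar.ρ (localGaloisToGlobal p σ) (b 1) = c • b 0)))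
    (hH : ∀ σ ∈ D.H, ∃ c : k,
      ρbar.ρ (localGaloisToGlobal p σ) = c • (1 : Module.End k ρbar.V)) :
    (∀ x : sl ρbar, p • x = 0) ∧
    (∀ (g : Gp) (a : k) (x : sl ρbar), act g (a • x) = a • act g x) ∧
    (∀ σ ∈ D.H, act σ = 1) ∧
    ∃ M₀ M₁ : Submodule k (sl ρbar), IsCompl M₀ M₁ ∧
      (∀ g, ∀ x ∈ M₀, act g x ∈ M₀) ∧ (∀ g, ∀ x ∈ M₁, act g x ∈ M₁) ∧
      (∀ x ∈ M₀, act D.τ x = x) ∧
      (∀ x ∈ M₀, (∀ g, act g x = x) → x = 0) ∧
      Nat.card M₁ = Nat.card k ^ 2 ∧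
      (∀ x ∈ M₁, (act D.τ ^ ((p + 1) / 2)) x = -x) ∧
      ((∀ x ∈ M₁, act D.τ x = -x) ∨ (∀ x ∈ M₁, act D.τ x = -x → x = 0)) := by
  have T := isTriple ρbar b
  have h2k : (2 : k) ≠ 0 := by
    intro h0
    have h1 : ((2 : ℕ) : k) = 0 := by exact_mod_cast h0
    rw [CharP.cast_eq_zero_iff k p] at h1
    exact hp2 ((Nat.prime_dvd_prime_iff_eq hp.out Nat.prime_two).mp h1)
  -- the shape of the action of a general `g`
  have hshape : ∀ g : Gp,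
      (ad0Repn ρbar (localGaloisToGlobal p g) (hS ρbar b) = hS ρbar b ∧
        ∃ u u' : k, ad0Repn ρbar (localGaloisToGlobal p g) (xS ρbar b) = u • xS ρbar b ∧
          ad0Repn ρbar (localGaloisToGlobal p g) (yS ρbar b) = u' • yS ρbar b) ∨
      (ad0Repn ρbar (localGaloisToGlobal p g) (hS ρbar b) = -hS ρbar b ∧
        ∃ u u' : k, ad0Repn ρbar (localGaloisToGlobal p g) (xS ρbar b) = u • yS ρbar b ∧
          ad0Repn ρbar (localGaloisToGlobal p g) (yS ρbar b) = u' • xS ρbar b) := by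
    intro g
    rcases hall g with ⟨⟨α, h0⟩, ⟨β, h1⟩⟩ | ⟨⟨γ, h0⟩, ⟨δ, h1⟩⟩
    · obtain ⟨e1, e2, e3⟩ := ad0_of_diag h0 h1
      exact Or.inl ⟨e1, _, _, e2, e3⟩
    · obtain ⟨e1, e2, e3⟩ := ad0_of_anti h0 h1
      exact Or.inr ⟨e1, _, _, e2, e3⟩
  -- the tame generator
  obtain ⟨c, hτ0, hτ1⟩ := hτ
  obtain ⟨eτh, eτx, eτy⟩ := ad0_of_diag hτ0 hτ1
  obtain ⟨hcξ, hcξp, -, -⟩ := inv_of_diag b (rho_inv_mul_rho ρbar _) hτ0 hτ1
  have hc0 : c ≠ 0 := left_ne_zero_of_mul hcξ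
  have hξ0 : ξ ≠ 0 := right_ne_zero_of_mul hcξ
  have hu : c * ξ / (c * ξ ^ p) = ξ / ξ ^ p := mul_div_mul_left _ _ hc0
  have hu' : c * ξ ^ p / (c * ξ) = (ξ / ξ ^ p)⁻¹ := by
    rw [mul_div_mul_left _ _ hc0, inv_div]
  rw [hu] at eτx
  rw [hu'] at eτy
  have hpow := ratio_pow_eq_neg_one hp.out hp2 hξ3
  have hpow' : ((ξ / ξ ^ p)⁻¹) ^ ((p + 1) / 2) = -1 := by
    rw [inv_pow, hpow, inv_neg, inv_one]
  refine ⟨fun x => ?_, fun g a x => ?_, fun σ hσ => ?_, Submodule.span k {hS ρbar b},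
    Submodule.span k {xS ρbar b, yS ρbar b}, T.isCompl, fun g => ?_, fun g => ?_, ?_, ?_,
    T.card_span_pair, ?_, ?_⟩
  · rw [← Nat.cast_smul_eq_nsmul k, CharP.cast_eq_zero k p, zero_smul]
  · rw [hact_eq, hact_eq, map_smul]
  · obtain ⟨c', hc'⟩ := hH σ hσ
    ext m
    rw [hact_eq, ad0_of_scalar hc', Module.End.one_apply]
  · intro x hx
    rw [hact_eq]
    refine map_mem_span_singleton (ad0Repn ρbar (localGaloisToGlobal p g)) ?_ x hx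
    rcases hshape g with ⟨e, -⟩ | ⟨e, -⟩
    · exact Or.inl e
    · exact Or.inr e
  · intro x hx
    rw [hact_eq]
    refine map_mem_span_pair (ad0Repn ρbar (localGaloisToGlobal p g)) ?_ x hx
    rcases hshape g with ⟨-, e⟩ | ⟨-, e⟩
    · exact Or.inl e
    · exact Or.inr e
  · intro x hx
    obtain ⟨a, rfl⟩ := Submodule.mem_span_singleton.mp hx
    rw [hact_eq, map_smul, eτh]
  · intro x hx hfix
    obtain ⟨σ, ⟨γ, h0⟩, ⟨δ, h1⟩⟩ := hanti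
    obtain ⟨e1, -, -⟩ := ad0_of_anti h0 h1
    refine T.eq_zero_of_neg h2k (ad0Repn ρbar (localGaloisToGlobal p σ)) e1 x hx ?_
    rw [← hact_eq]
    exact hfix σ
  · intro x hx
    rw [act_pow_apply ρbar act hact_eq]
    exact pow_apply_eq_neg (ad0Repn ρbar (localGaloisToGlobal p D.τ)) eτx eτy hpow hpow' x hx
  · have hd := T.dichotomy (ad0Repn ρbar (localGaloisToGlobal p D.τ)) eτx eτy
    rcases hd with hd | hd
    · exact Or.inl fun x hx => by rw [hact_eq]; exact hd x hx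
    · exact Or.inr fun x hx hx' => hd x hx (by rw [← hact_eq]; exact hx')

/-- **AD⁰ operator form** (neutral input) for `act = actZ ρbar p`. -/
theorem operator_form [CharP k p] (hp2 : p ≠ 2) (D : TameData p ℚ_[p] (PadicAlgCl p)) {ξ : k}
    (hξ3 : ξ ^ ((p ^ 2 - 1) / 2) = -1)
    (hτ : ∃ c : k, ρbar.ρ (localGaloisToGlobal p D.τ) (b 0) = (c * ξ) • b 0 ∧
      ρbar.ρ (localGaloisToGlobal p D.τ) (b 1) = (c * ξ ^ p) • b 1)
    (hanti : ∃ σ : Gp, (∃ c : k, ρbar.ρ (localGaloisToGlobal p σ) (b 0) = c • b 1) ∧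
      (∃ c : k, ρbar.ρ (localGaloisToGlobal p σ) (b 1) = c • b 0))
    (hall : ∀ σ : Gp,
      ((∃ c : k, ρbar.ρ (localGaloisToGlobal p σ) (b 0) = c • b 0) ∧
        (∃ c : k, ρbar.ρ (localGaloisToGlobal p σ) (b 1) = c • b 1)) ∨
      ((∃ c : k, ρbar.ρ (localGaloisToGlobal p σ) (b 0) = c • b 1) ∧
        (∃ c : k, ρbar.ρ (localGaloisToGlobal p σ) (b 1) = c • b 0)))
    (hH : ∀ σ ∈ D.H, ∃ c : k,
      ρbar.ρ (localGaloisToGlobal p σ) = c • (1 : Module.End k ρbar.V)) :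
    (∀ x : sl ρbar, p • x = 0) ∧
    (∀ (g : Gp) (a : k) (x : sl ρbar), actZ ρbar p g (a • x) = a • actZ ρbar p g x) ∧
    (∀ σ ∈ D.H, actZ ρbar p σ = 1) ∧
    ∃ M₀ M₁ : Submodule k (sl ρbar), IsCompl M₀ M₁ ∧
      (∀ g, ∀ x ∈ M₀, actZ ρbar p g x ∈ M₀) ∧ (∀ g, ∀ x ∈ M₁, actZ ρbar p g x ∈ M₁) ∧
      (∀ x ∈ M₀, actZ ρbar p D.τ x = x) ∧
      (∀ x ∈ M₀, (∀ g, actZ ρbar p g x = x) → x = 0) ∧
      Nat.card M₁ = Nat.card k ^ 2 ∧
      (∀ x ∈ M₁, (actZ ρbar p D.τ ^ ((p + 1) / 2)) x = -x) ∧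
      ((∀ x ∈ M₁, actZ ρbar p D.τ x = -x) ∨ (∀ x ∈ M₁, actZ ρbar p D.τ x = -x → x = 0)) :=
  operator_form_act ρbar b hp2 D (actZ ρbar p) (fun _ _ => rfl) hξ3 hτ hanti hall hH

/-- **AD⁰ operator form** from the two extra clauses of `levelTwo_ext` (local form) and clauses
6, 7 of `IsLocalLevelTwo`, for a tame datum whose Frobenius lift satisfies `φ ζ = ζ ^ p`. -/
theorem operator_form_of_ext [CharP k p] (hp2 : p ≠ 2) (D : TameData p ℚ_[p] (PadicAlgCl p))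
    (hφζ : D.φ D.ζ = D.ζ ^ p) {ξ : k} (hξ3 : ξ ^ ((p ^ 2 - 1) / 2) = -1)
    (hdiag : ∀ σ : Gp, σ D.ζ = D.ζ → ∀ n : ℕ, σ D.π = D.ζ ^ n * D.π →
      ∃ c : k, ρbar.ρ (localGaloisToGlobal p σ) (b 0) = (c * ξ ^ n) • b 0 ∧
        ρbar.ρ (localGaloisToGlobal p σ) (b 1) = (c * ξ ^ (n * p)) • b 1)
    (hswap : ∀ σ : Gp, σ D.ζ = D.ζ ^ p →
      (∃ c : k, ρbar.ρ (localGaloisToGlobal p σ) (b 0) = c • b 1) ∧
        (∃ c : k, ρbar.ρ (localGaloisToGlobal p σ) (b 1) = c • b 0))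
    (hall : ∀ σ : Gp,
      ((∃ c : k, ρbar.ρ (localGaloisToGlobal p σ) (b 0) = c • b 0) ∧
        (∃ c : k, ρbar.ρ (localGaloisToGlobal p σ) (b 1) = c • b 1)) ∨
      ((∃ c : k, ρbar.ρ (localGaloisToGlobal p σ) (b 0) = c • b 1) ∧
        (∃ c : k, ρbar.ρ (localGaloisToGlobal p σ) (b 1) = c • b 0)))
    (hscal : ∀ σ : Gp, σ D.π = D.π → σ D.ζ = D.ζ →
      ∃ c : k, ρbar.ρ (localGaloisToGlobal p σ) = c • (1 : Module.End k ρbar.V)) :
    (∀ x : sl ρbar, p • x = 0) ∧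
    (∀ (g : Gp) (a : k) (x : sl ρbar), actZ ρbar p g (a • x) = a • actZ ρbar p g x) ∧
    (∀ σ ∈ D.H, actZ ρbar p σ = 1) ∧
    ∃ M₀ M₁ : Submodule k (sl ρbar), IsCompl M₀ M₁ ∧
      (∀ g, ∀ x ∈ M₀, actZ ρbar p g x ∈ M₀) ∧ (∀ g, ∀ x ∈ M₁, actZ ρbar p g x ∈ M₁) ∧
      (∀ x ∈ M₀, actZ ρbar p D.τ x = x) ∧
      (∀ x ∈ M₀, (∀ g, actZ ρbar p g x = x) → x = 0) ∧
      Nat.card M₁ = Nat.card k ^ 2 ∧
      (∀ x ∈ M₁, (actZ ρbar p D.τ ^ ((p + 1) / 2)) x = -x) ∧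
      ((∀ x ∈ M₁, actZ ρbar p D.τ x = -x) ∨ (∀ x ∈ M₁, actZ ρbar p D.τ x = -x → x = 0)) := by
  refine operator_form ρbar b hp2 D hξ3 ?_ ⟨D.φ, hswap D.φ hφζ⟩ hall
    (fun σ hσ => hscal σ (D.π_mem σ hσ) (D.ζ_mem σ hσ))
  obtain ⟨c, h0, h1⟩ := hdiag D.τ D.τζ 1 (by rw [pow_one]; exact D.τπ)
  exact ⟨c, by rw [h0, pow_one], by rw [h1, one_mul]⟩

/-- **AD⁰ operator form, final packaging**: for `A = Rep.res (localGaloisToGlobal p) (ad0Rep ρbar)`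
and any presentation `act` of its action by `ℤ`-linear endomorphisms (e.g. `repActZ A`, with
`hact_eq` by `rfl`), from the literal body of helper9's `IsLocalLevelTwoExt ρbar p D.π D.ζ`
(norm-inertia and norm-Frobenius inlined) and `D.φ D.ζ = D.ζ ^ p`. -/
theorem operator_form_of_shape [CharP k p] (hp2 : p ≠ 2) (D : TameData p ℚ_[p] (PadicAlgCl p))
    (hφζ : D.φ D.ζ = D.ζ ^ p)
    (act : Gp →* Module.End ℤ (Rep.res (localGaloisToGlobal p) (ad0Rep ρbar)))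
    (hact_eq : ∀ g m, act g m = (Rep.res (localGaloisToGlobal p) (ad0Rep ρbar)).ρ g m)
    (hshape : ∃ (b : Module.Basis (Fin 2) k ρbar.V) (ξ : k),
      ξ ^ p ≠ ξ ∧ ξ ^ (p ^ 2) = ξ ∧ ξ ^ ((p ^ 2 - 1) / 2) = -1 ∧
      (∀ s : Gp, (∀ y : PadicAlgCl p, ‖y‖ ≤ 1 → ‖s y - y‖ < 1) → ∀ n : ℕ,
        s D.π = D.ζ ^ n * D.π →
          ρbar.ρ (localGaloisToGlobal p s) (b 0) = ξ ^ n • b 0 ∧
            ρbar.ρ (localGaloisToGlobal p s) (b 1) = ξ ^ (n * p) • b 1) ∧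
      (∀ φ : Gp, (∀ y : PadicAlgCl p, ‖y‖ ≤ 1 → ‖φ y - y ^ p‖ < 1) →
        (∃ c : k, ρbar.ρ (localGaloisToGlobal p φ) (b 0) = c • b 1) ∧
          (∃ c : k, ρbar.ρ (localGaloisToGlobal p φ) (b 1) = c • b 0)) ∧
      (∀ σ : Gp,
        ((∃ c : k, ρbar.ρ (localGaloisToGlobal p σ) (b 0) = c • b 0) ∧
          (∃ c : k, ρbar.ρ (localGaloisToGlobal p σ) (b 1) = c • b 1)) ∨
        ((∃ c : k, ρbar.ρ (localGaloisToGlobal p σ) (b 0) = c • b 1) ∧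
          (∃ c : k, ρbar.ρ (localGaloisToGlobal p σ) (b 1) = c • b 0))) ∧
      (∀ σ : Gp, σ D.π = D.π → σ D.ζ = D.ζ →
        ∃ c : k, ρbar.ρ (localGaloisToGlobal p σ) = c • (1 : Module.End k ρbar.V)) ∧
      (∀ σ : Gp, σ D.ζ = D.ζ → ∀ n : ℕ, σ D.π = D.ζ ^ n * D.π →
        ∃ c : k, ρbar.ρ (localGaloisToGlobal p σ) (b 0) = (c * ξ ^ n) • b 0 ∧
          ρbar.ρ (localGaloisToGlobal p σ) (b 1) = (c * ξ ^ (n * p)) • b 1) ∧
      (∀ σ : Gp, σ D.ζ = D.ζ ^ p →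
        (∃ c : k, ρbar.ρ (localGaloisToGlobal p σ) (b 0) = c • b 1) ∧
          (∃ c : k, ρbar.ρ (localGaloisToGlobal p σ) (b 1) = c • b 0))) :
    (∀ x : (Rep.res (localGaloisToGlobal p) (ad0Rep ρbar)), p • x = 0) ∧
    (∀ (g : Gp) (a : k) (x : (Rep.res (localGaloisToGlobal p) (ad0Rep ρbar))),
      act g (a • x) = a • act g x) ∧
    (∀ σ ∈ D.H, act σ = 1) ∧
    ∃ M₀ M₁ : Submodule k (Rep.res (localGaloisToGlobal p) (ad0Rep ρbar)), IsCompl M₀ M₁ ∧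
      (∀ g, ∀ x ∈ M₀, act g x ∈ M₀) ∧ (∀ g, ∀ x ∈ M₁, act g x ∈ M₁) ∧
      (∀ x ∈ M₀, act D.τ x = x) ∧
      (∀ x ∈ M₀, (∀ g, act g x = x) → x = 0) ∧
      Nat.card M₁ = Nat.card k ^ 2 ∧
      (∀ x ∈ M₁, (act D.τ ^ ((p + 1) / 2)) x = -x) ∧
      ((∀ x ∈ M₁, act D.τ x = -x) ∨ (∀ x ∈ M₁, act D.τ x = -x → x = 0)) := by
  obtain ⟨b, ξ, -, -, hξ3, -, -, hall, hscal, hdiag, hswap⟩ := hshape
  obtain ⟨c, h0, h1⟩ := hdiag D.τ D.τζ 1 (by rw [pow_one]; exact D.τπ)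
  exact operator_form_act ρbar b hp2 D act hact_eq hξ3
    ⟨c, by rw [h0, pow_one], by rw [h1, one_mul]⟩ ⟨D.φ, hswap D.φ hφζ⟩ hall
    (fun σ hσ => hscal σ (D.π_mem σ hσ) (D.ζ_mem σ hσ))

end Main

end Fermat.Agent.TW.AdOp
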